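import Fermat.Agent.A2.H528.FrickeDistinct
import Fermat.Agent.S28.Defs

/-!
# A2 / M1mod (helper309) — the Fricke involution on the integral ring `ℤ[j(q^d) : d ∣ N]`

`intRing N = Subring.closure (intDivisorExpansions N) ⊆ ℤ((q))` is the ring generated by the
`q`-expansions `j(q^d)`, `d ∣ N`.  The Fricke involution `w_N` of `FF N` (helper528) maps (the image
in `ℚ̄((q))` of) `intRing N` to itself, permuting the generators `j(q^d) ↦ j(q^{N/d})`.

* `intEmb_mem_FF`  : `intEmb y ∈ modularFunctionFieldBar N` for `y ∈ intRing N`;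
* `exists_wInt`    : for `y ∈ intRing N` there is `y' ∈ intRing N` with `w_N (intEmb y) = intEmb y'`;
* `wInt`, `wInt_spec`, `wInt_wInt`, `wInt_add`, `wInt_mul`, `wInt_jZ` : the induced involution.
-/

set_option autoImplicit false

noncomputable section

open ModularCurve HahnSeries

namespace Fermat.Agent.A2.H309

open Fermat.Agent.S24 Fermat.Agent.S24.H997 Fermat.Agent.A2.H528 Fermat.Agent.S28

variable (N : ℕ) [NeZero N]

/-- `ℤ[j(q^d) : d ∣ N] ⊆ ℤ((q))`. -/
abbrev intRing : Subring (LaurentSeries ℤ) := Subring.closure (intDivisorExpansions N)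

omit [NeZero N] in
theorem jZ_mem_intRing (d : ℕ) [NeZero d] (hd : d ∣ N) : jZ d ∈ intRing N :=
  Subring.subset_closure ⟨d, ‹_›, hd, rfl⟩

omit [NeZero N] in
theorem intEmb_mem_FF {y : LaurentSeries ℤ} (hy : y ∈ intRing N) :
    intEmb y ∈ modularFunctionFieldBar N := by
  induction hy using Subring.closure_induction with
  | mem x hx =>
      obtain ⟨d, hne, hd, rfl⟩ := hx
      have := hne
      have h := (jFd N d hd).2
      rw [coe_jFd_int] at h
      exact h
  | zero => rw [map_zero]; exact zero_mem _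
  | one => rw [map_one]; exact one_mem _
  | add x y _ _ hx hy => rw [map_add]; exact add_mem hx hy
  | neg x _ hx => rw [map_neg]; exact neg_mem hx
  | mul x y _ _ hx hy => rw [map_mul]; exact mul_mem hx hy

/-- the image of `y ∈ ℤ[j(q^d)]` in `FF N`. -/
def toFF (y : intRing N) : FF N := ⟨intEmb (y : LaurentSeries ℤ), intEmb_mem_FF N y.2⟩

omit [NeZero N] in
@[simp] theorem coe_toFF (y : intRing N) :
    ((toFF N y : FF N) : LaurentSeries Kbar) = intEmb (y : LaurentSeries ℤ) := rfl

omit [NeZero N] in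
theorem toFF_injective : Function.Injective (toFF N) := by
  intro x y h
  apply Subtype.ext
  apply intEmb_injective
  exact congrArg Subtype.val h

omit [NeZero N] in
theorem toFF_add (x y : intRing N) : toFF N (x + y) = toFF N x + toFF N y :=
  Subtype.ext (map_add intEmb _ _)

omit [NeZero N] in
theorem toFF_mul (x y : intRing N) : toFF N (x * y) = toFF N x * toFF N y :=
  Subtype.ext (map_mul intEmb _ _)

omit [NeZero N] in
theorem toFF_neg (x : intRing N) : toFF N (-x) = -toFF N x :=
  Subtype.ext (map_neg intEmb _)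

omit [NeZero N] in
theorem toFF_zero : toFF N 0 = 0 := Subtype.ext (map_zero intEmb)

omit [NeZero N] in
theorem toFF_one : toFF N 1 = 1 := Subtype.ext (map_one intEmb)

/-- the generator `j(q^d)` of `intRing N`. -/
def jInt (d : ℕ) [NeZero d] (hd : d ∣ N) : intRing N := ⟨jZ d, jZ_mem_intRing N d hd⟩

omit [NeZero N] in
theorem toFF_jInt (d : ℕ) [NeZero d] (hd : d ∣ N) : toFF N (jInt N d hd) = jFd N d hd :=
  Subtype.ext (coe_jFd_int N d hd).symm

/-- **Integral Fricke.**  `w_N` maps the image of `ℤ[j(q^d)]` into itself. -/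
theorem exists_wInt (y : intRing N) : ∃ y' : intRing N, wF N (toFF N y) = toFF N y' := by
  obtain ⟨y, hy⟩ := y
  induction hy using Subring.closure_induction with
  | mem x hx =>
      obtain ⟨d, hne, hd, rfl⟩ := hx
      have := hne
      have := neZero_div N hd
      refine ⟨jInt N (N / d) (Nat.div_dvd_of_dvd hd), ?_⟩
      have h1 : toFF N ⟨qExpand ℤ d (jqModC ℤ), Subring.subset_closure ⟨d, hne, hd, rfl⟩⟩
          = jFd N d hd := toFF_jInt N d hd
      rw [h1, wF_jFd, toFF_jInt]
  | zero =>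
      exact ⟨0, by
        have : toFF N ⟨0, zero_mem _⟩ = 0 := toFF_zero N
        rw [this, map_zero, toFF_zero]⟩
  | one =>
      exact ⟨1, by
        have : toFF N ⟨1, one_mem _⟩ = 1 := toFF_one N
        rw [this, map_one, toFF_one]⟩
  | add x y hx hy ihx ihy =>
      obtain ⟨a, ha⟩ := ihx
      obtain ⟨b, hb⟩ := ihy
      refine ⟨a + b, ?_⟩
      have : toFF N ⟨x + y, add_mem hx hy⟩ = toFF N ⟨x, hx⟩ + toFF N ⟨y, hy⟩ :=
        toFF_add N ⟨x, hx⟩ ⟨y, hy⟩
      rw [this, map_add, ha, hb, toFF_add]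
  | neg x hx ihx =>
      obtain ⟨a, ha⟩ := ihx
      refine ⟨-a, ?_⟩
      have : toFF N ⟨-x, neg_mem hx⟩ = -toFF N ⟨x, hx⟩ := toFF_neg N ⟨x, hx⟩
      rw [this, map_neg, ha, toFF_neg]
  | mul x y hx hy ihx ihy =>
      obtain ⟨a, ha⟩ := ihx
      obtain ⟨b, hb⟩ := ihy
      refine ⟨a * b, ?_⟩
      have : toFF N ⟨x * y, mul_mem hx hy⟩ = toFF N ⟨x, hx⟩ * toFF N ⟨y, hy⟩ :=
        toFF_mul N ⟨x, hx⟩ ⟨y, hy⟩
      rw [this, map_mul, ha, hb, toFF_mul]

/-- the Fricke involution on `ℤ[j(q^d) : d ∣ N]`. -/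
def wInt (y : intRing N) : intRing N := (exists_wInt N y).choose

theorem wInt_spec (y : intRing N) : wF N (toFF N y) = toFF N (wInt N y) :=
  (exists_wInt N y).choose_spec

theorem wInt_wInt (y : intRing N) : wInt N (wInt N y) = y := by
  apply toFF_injective N
  rw [← wInt_spec, ← wInt_spec, wF_wF]

theorem wInt_add (x y : intRing N) : wInt N (x + y) = wInt N x + wInt N y := by
  apply toFF_injective N
  rw [← wInt_spec, toFF_add, map_add, wInt_spec, wInt_spec, toFF_add]

theorem wInt_mul (x y : intRing N) : wInt N (x * y) = wInt N x * wInt N y := by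
  apply toFF_injective N
  rw [← wInt_spec, toFF_mul, map_mul, wInt_spec, wInt_spec, toFF_mul]

theorem wInt_zero : wInt N 0 = 0 := by
  apply toFF_injective N
  rw [← wInt_spec, toFF_zero, map_zero]

theorem wInt_one : wInt N 1 = 1 := by
  apply toFF_injective N
  rw [← wInt_spec, toFF_one, map_one]

theorem wInt_jInt (d : ℕ) [NeZero d] (hd : d ∣ N) :
    haveI := neZero_div N hd
    wInt N (jInt N d hd) = jInt N (N / d) (Nat.div_dvd_of_dvd hd) := by
  have := neZero_div N hd
  apply toFF_injective N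
  rw [← wInt_spec, toFF_jInt, wF_jFd, toFF_jInt]

/-- the Fricke involution as a ring homomorphism of `ℤ[j(q^d) : d ∣ N]`. -/
def wIntHom : intRing N →+* intRing N where
  toFun := wInt N
  map_one' := wInt_one N
  map_mul' := wInt_mul N
  map_zero' := wInt_zero N
  map_add' := wInt_add N

@[simp] theorem wIntHom_apply (y : intRing N) : wIntHom N y = wInt N y := rfl

end Fermat.Agent.A2.H309
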