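import Fermat.Agent.A2.H309.FrickeInt
import Fermat.Agent.S28.H806.Valuation
import Fermat.Agent.S28.H508.CoreToBasis
import Fermat.Agent.S28.H508.Integral
import Fermat.Agent.S28.H867.Core
import Fermat.Agent.S28.H807.Analytic
import Fermat.Agent.S28.H25.Theta

/-!
# A2 / M1mod (helper309) — the Fricke involution descends modulo a prime `ℓ ∤ N`

`redZ ℓ : ℤ((q)) → 𝔽_ℓ((q))` is the coefficientwise reduction.

* `wQ N` : the Fricke involution on the `ℚ`-rational function field `modularFunctionFieldFull N`;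
* `wQ_mem_chartAlgFin` : `w_N` preserves the integral closure of `ℤ_(ℓ)[j]` (any `ℓ`);
* `redZ_wInt_eq_zero` : **for `ℓ ∤ N`**: `y ∈ ℤ[j(q^d)]`, `y ≡ 0 mod ℓ` ⟹ `w_N y ≡ 0 mod ℓ`
  (uses the `q`-expansion principle `kernel_fin` of S28);
* `redZ_wInt_eq_zero_iff`.
-/

set_option autoImplicit false

noncomputable section

open ModularCurve HahnSeries ModularCurve.IgusaScheme

namespace Fermat.Agent.A2.H309

open Fermat.Agent.S24 Fermat.Agent.S24.H997 Fermat.Agent.A2.H528 Fermat.Agent.S28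
open Fermat.Agent.S28.H806

variable (N : ℕ) [NeZero N]

/-- `ℤ((q)) → ℚ((q))`. -/
def ratEmb : LaurentSeries ℤ →+* LaurentSeries ℚ := coeffMap (Int.castRingHom ℚ)

/-- coefficientwise reduction `ℤ((q)) → 𝔽_ℓ((q))`. -/
def redZ (ℓ : ℕ) : LaurentSeries ℤ →+* LaurentSeries (ZMod ℓ) :=
  coeffMap (Int.castRingHom (ZMod ℓ))

theorem ratEmb_jZ (d : ℕ) [NeZero d] : ratEmb (jZ d) = qExpand ℚ d jq := by
  have h1 : jq = coeffMap (Int.castRingHom ℚ) (jqModC ℤ) := by
    rw [← jqModC_rat]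
    exact (map_jqModC (Int.castRingHom ℚ)).symm
  rw [h1, jZ, ratEmb, coeffMap_qExpand]

omit [NeZero N] in
theorem ratEmb_mem_full {y : LaurentSeries ℤ} (hy : y ∈ intRing N) :
    ratEmb y ∈ modularFunctionFieldFull N := by
  induction hy using Subring.closure_induction with
  | mem x hx =>
      obtain ⟨d, hne, hd, rfl⟩ := hx
      have := hne
      have h := ratEmb_jZ d
      rw [jZ] at h
      rw [h]
      exact jqd_mem_full N hd
  | zero => rw [map_zero]; exact zero_mem _
  | one => rw [map_one]; exact one_mem _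
  | add x y _ _ hx hy => rw [map_add]; exact add_mem hx hy
  | neg x _ hx => rw [map_neg]; exact neg_mem hx
  | mul x y _ _ hx hy => rw [map_mul]; exact mul_mem hx hy

/-- the image of `y ∈ ℤ[j(q^d)]` in the `ℚ`-rational function field. -/
def toQ (y : intRing N) : ↥(modularFunctionFieldFull N) :=
  ⟨ratEmb (y : LaurentSeries ℤ), ratEmb_mem_full N y.2⟩

omit [NeZero N] in
@[simp] theorem coe_toQ (y : intRing N) :
    ((toQ N y : ↥(modularFunctionFieldFull N)) : LaurentSeries ℚ) = ratEmb y := rfl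

omit [NeZero N] in
theorem toQ_add (x y : intRing N) : toQ N (x + y) = toQ N x + toQ N y :=
  Subtype.ext (map_add ratEmb _ _)

omit [NeZero N] in
theorem toQ_mul (x y : intRing N) : toQ N (x * y) = toQ N x * toQ N y :=
  Subtype.ext (map_mul ratEmb _ _)

/-- base change of constants `F_ℚ → F_ℚ̄`. -/
def toBar : ↥(modularFunctionFieldFull N) →+* FF N where
  toFun x := ⟨coeffEmb Kbar (x : LaurentSeries ℚ), coeffEmb_mem_laurentBaseChange Kbar x.2⟩
  map_one' := Subtype.ext (map_one _)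
  map_mul' x y := Subtype.ext (map_mul (coeffEmb Kbar) _ _)
  map_zero' := Subtype.ext (map_zero _)
  map_add' x y := Subtype.ext (map_add (coeffEmb Kbar) _ _)

omit [NeZero N] in
@[simp] theorem coe_toBar (x : ↥(modularFunctionFieldFull N)) :
    ((toBar N x : FF N) : LaurentSeries Kbar) = coeffEmb Kbar (x : LaurentSeries ℚ) := rfl

omit [NeZero N] in
theorem toBar_injective : Function.Injective (toBar N) := (toBar N).injective

omit [NeZero N] in
theorem coeffEmb_ratEmb (y : LaurentSeries ℤ) : coeffEmb Kbar (ratEmb y) = intEmb y := by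
  rw [coeffEmb, ratEmb, intEmb, coeffMap_coeffMap]
  exact coeffMap_congr (RingHom.ext_int _ _) y

omit [NeZero N] in
theorem toBar_toQ (y : intRing N) : toBar N (toQ N y) = toFF N y :=
  Subtype.ext (coeffEmb_ratEmb _)

theorem exists_wQ (x : ↥(modularFunctionFieldFull N)) :
    ∃ y : ↥(modularFunctionFieldFull N), wF N (toBar N x) = toBar N y := by
  obtain ⟨y, hy, h⟩ := wF_rat N x.2
  exact ⟨⟨y, hy⟩, Subtype.ext h⟩

/-- the Fricke involution on the `ℚ`-rational function field (as a function). -/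
def wQfun (x : ↥(modularFunctionFieldFull N)) : ↥(modularFunctionFieldFull N) :=
  (exists_wQ N x).choose

theorem wQfun_spec (x : ↥(modularFunctionFieldFull N)) :
    toBar N (wQfun N x) = wF N (toBar N x) :=
  (exists_wQ N x).choose_spec.symm

/-- **The Fricke involution on the `ℚ`-rational function field.** -/
def wQ : ↥(modularFunctionFieldFull N) →+* ↥(modularFunctionFieldFull N) where
  toFun := wQfun N
  map_one' := toBar_injective N (by rw [wQfun_spec]; simp)
  map_mul' x y := toBar_injective N (by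
    rw [wQfun_spec, map_mul, map_mul, map_mul, wQfun_spec, wQfun_spec])
  map_zero' := toBar_injective N (by rw [wQfun_spec]; simp)
  map_add' x y := toBar_injective N (by
    rw [wQfun_spec, map_add, map_add, map_add, wQfun_spec, wQfun_spec])

theorem wQ_spec (x : ↥(modularFunctionFieldFull N)) : toBar N (wQ N x) = wF N (toBar N x) :=
  wQfun_spec N x

theorem wQ_wQ (x : ↥(modularFunctionFieldFull N)) : wQ N (wQ N x) = x := by
  apply toBar_injective N
  rw [wQ_spec, wQ_spec, wF_wF]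

theorem wQ_toQ (y : intRing N) : wQ N (toQ N y) = toQ N (wInt N y) := by
  apply toBar_injective N
  rw [wQ_spec, toBar_toQ, toBar_toQ, wInt_spec]

/-! ### Integrality -/

variable (ℓ : ℕ) [Fact ℓ.Prime]

theorem exists_monic_jZ (d : ℕ) [NeZero d] :
    ∃ P : Polynomial (Polynomial ℤ), P.Monic ∧
      P.eval₂ (evalAt (jqModC ℤ)) (qExpand ℤ d (jqModC ℤ)) = 0 :=
  H508.intOver_qExpand_jq d (fun p hp _ =>
    haveI : NeZero p := ⟨hp.ne_zero⟩
    H807.nonempty_modPolyData p hp)

/-- elements of `ℤ[j(q^d)]` are integral over `ℤ_(ℓ)[j]`. -/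
theorem toQ_mem_chartAlgFin (y : intRing N) : toQ N y ∈ chartAlgFin N ℓ := by
  rw [mem_chartAlg_iff]
  apply isIntegral_of_isIntegralElem_phiJ ℓ N
  obtain ⟨P, hP, hroot⟩ := H508.isIntegralElem_of_mem_closure N
    (fun d _ _ => exists_monic_jZ d) y.2
  refine isIntegralElem_phiJ_of_root ℓ N (y : LaurentSeries ℤ) 1 ?_ P ?_ hroot
  · exact fun h => (Fact.out : ℓ.Prime).one_lt.ne' (Nat.dvd_one.mp h)
  · rw [hP.leadingCoeff]; simp

instance charZero_full : CharZero ↥(modularFunctionFieldFull N) :=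
  charZero_of_injective_algebraMap (algebraMap ℚ ↥(modularFunctionFieldFull N)).injective

theorem wQ_algebraMap (r : ↥(GaloisRep.ratLocalizedAt ℓ)) :
    wQ N (algebraMap ↥(GaloisRep.ratLocalizedAt ℓ) ↥(modularFunctionFieldFull N) r)
      = algebraMap ↥(GaloisRep.ratLocalizedAt ℓ) ↥(modularFunctionFieldFull N) r := by
  have h := ringHom_ext_Zl ℓ
    ((wQ N).comp (algebraMap ↥(GaloisRep.ratLocalizedAt ℓ) ↥(modularFunctionFieldFull N)))
    (algebraMap ↥(GaloisRep.ratLocalizedAt ℓ) ↥(modularFunctionFieldFull N))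
  exact RingHom.congr_fun h r

theorem jFull_eq_toQ : jFull N = toQ N (jInt N 1 (one_dvd N)) := by
  apply Subtype.ext
  rw [coe_jFull, coe_toQ]
  show jq = ratEmb (jZ 1)
  rw [ratEmb_jZ, qExpand_one_apply]

theorem wQ_jFull_mem : wQ N (jFull N) ∈ chartAlgFin N ℓ := by
  rw [jFull_eq_toQ, wQ_toQ]
  exact toQ_mem_chartAlgFin N ℓ _

theorem wQ_mem_of_mem_adjoin {a : ↥(modularFunctionFieldFull N)}
    (ha : a ∈ Algebra.adjoin ↥(GaloisRep.ratLocalizedAt ℓ)
      ({jFull N} : Set ↥(modularFunctionFieldFull N))) :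
    wQ N a ∈ chartAlgFin N ℓ := by
  induction ha using Algebra.adjoin_induction with
  | mem x hx =>
      rw [Set.mem_singleton_iff] at hx
      rw [hx]
      exact wQ_jFull_mem N ℓ
  | algebraMap r =>
      rw [wQ_algebraMap]
      exact Subalgebra.algebraMap_mem _ r
  | add x y _ _ hx hy => rw [map_add]; exact add_mem hx hy
  | mul x y _ _ hx hy => rw [map_mul]; exact mul_mem hx hy

/-- **`w_N` preserves the integral closure of `ℤ_(ℓ)[j]`.** -/
theorem wQ_mem_chartAlgFin {x : ↥(modularFunctionFieldFull N)} (hx : x ∈ chartAlgFin N ℓ) :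
    wQ N x ∈ chartAlgFin N ℓ := by
  rw [mem_chartAlg_iff] at hx ⊢
  -- `T` = integral closure of `ℤ_(ℓ)[j]`
  set A := Algebra.adjoin ↥(GaloisRep.ratLocalizedAt ℓ)
    ({jFull N} : Set ↥(modularFunctionFieldFull N)) with hA
  set T := integralClosure A ↥(modularFunctionFieldFull N) with hT
  have hmem : ∀ a : A, wQ N (a : ↥(modularFunctionFieldFull N)) ∈ T := fun a =>
    (mem_chartAlg_iff N ℓ).mp (wQ_mem_of_mem_adjoin N ℓ a.2)
  let φ : A →+* T :=
    { toFun := fun a => ⟨wQ N (a : ↥(modularFunctionFieldFull N)), hmem a⟩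
      map_one' := Subtype.ext (map_one (wQ N))
      map_mul' := fun a b => Subtype.ext (map_mul (wQ N) _ _)
      map_zero' := Subtype.ext (map_zero (wQ N))
      map_add' := fun a b => Subtype.ext (map_add (wQ N) _ _) }
  have h1 : IsIntegral T (wQ N x) :=
    hx.map_of_comp_eq φ (wQ N) (by ext a; rfl)
  have h2 : wQ N x ∈ integralClosure T ↥(modularFunctionFieldFull N) := h1
  rw [integralClosure_idem] at h2
  obtain ⟨t, ht⟩ := Algebra.mem_bot.mp h2
  rw [← ht]
  exact t.2

/-! ### Reduction -/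

theorem toQ_mem_gaussSub (y : intRing N) : toQ N y ∈ gaussSub ℓ N := by
  rw [mem_gaussSub_iff, coe_toQ, ratEmb, coeffMap_intCast_rat ℓ]
  exact incl_mem_gaussRing ℓ _

theorem gaussSubRed_toQ (y : intRing N) :
    gaussSubRed ℓ N ⟨toQ N y, toQ_mem_gaussSub N ℓ y⟩ = redZ ℓ (y : LaurentSeries ℤ) := by
  show gaussRed ℓ (gaussSubTo ℓ N ⟨toQ N y, toQ_mem_gaussSub N ℓ y⟩) = _
  have h : gaussSubTo ℓ N ⟨toQ N y, toQ_mem_gaussSub N ℓ y⟩ =
      ⟨incl ℓ (coeffMap (intToZl ℓ) (y : LaurentSeries ℤ)), incl_mem_gaussRing ℓ _⟩ := by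
    apply Subtype.ext
    show ratEmb (y : LaurentSeries ℤ) = _
    rw [ratEmb, coeffMap_intCast_rat ℓ]
  rw [h, gaussRed_incl, redL_coeffMap_intCast]
  rfl

theorem gaussSubRed_natCast_self : gaussSubRed ℓ N (ℓ : gaussSub ℓ N) = 0 := by
  rw [map_natCast]
  have : ((ℓ : ZMod ℓ)) = 0 := ZMod.natCast_self ℓ
  rw [← map_natCast (HahnSeries.C (Γ := ℤ) (R := ZMod ℓ)), this, map_zero]

/-- the basis data of S28 at a level prime to `ℓ`. -/
theorem basisData (hℓN : ¬ ℓ ∣ N) : BasisData N ℓ :=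
  H508.basisData_of_coreData N ℓ
    (H867.coreData_of_inputs N ℓ hℓN (ZMod ℓ)
      (fun p hp _ _ => H807.nonempty_modPolyData p hp)
      (fun p hp _ _ => H807.nonempty_unitPolyData p hp)
      H25.theta_identity)

/-- **The Fricke involution descends modulo `ℓ ∤ N`.** -/
theorem redZ_wInt_eq_zero (hℓN : ¬ ℓ ∣ N) (y : intRing N)
    (hy : redZ ℓ (y : LaurentSeries ℤ) = 0) :
    redZ ℓ (wInt N y : LaurentSeries ℤ) = 0 := by
  -- `y` as an element of the finite chart, with zero reduction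
  set x : chartAlgFin N ℓ := ⟨toQ N y, toQ_mem_chartAlgFin N ℓ y⟩ with hx
  have hxred : chartRed ℓ N {jFull N} (isChartSet_fin N) x = 0 := by
    have : chartRed ℓ N {jFull N} (isChartSet_fin N) x
        = gaussSubRed ℓ N ⟨toQ N y, toQ_mem_gaussSub N ℓ y⟩ := rfl
    rw [this, gaussSubRed_toQ, hy]
  obtain ⟨x₁, hx₁⟩ := kernel_fin (basisData N ℓ hℓN) x hxred
  have hx₁' : toQ N y = (ℓ : ↥(modularFunctionFieldFull N)) * (x₁ : ↥(modularFunctionFieldFull N)) := by
    have h0 := congrArg (fun z : chartAlgFin N ℓ => (z : ↥(modularFunctionFieldFull N))) hx₁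
    simp only [Subalgebra.coe_mul] at h0
    have h1 : ((x : chartAlgFin N ℓ) : ↥(modularFunctionFieldFull N)) = toQ N y := rfl
    rw [← h1, h0]
    congr 1
  -- apply `w_N`
  have hw : toQ N (wInt N y)
      = (ℓ : ↥(modularFunctionFieldFull N)) * wQ N (x₁ : ↥(modularFunctionFieldFull N)) := by
    rw [← wQ_toQ, hx₁', map_mul, map_natCast]
  have hmem : wQ N (x₁ : ↥(modularFunctionFieldFull N)) ∈ gaussSub ℓ N :=
    (isChartSet_fin N).le_gaussSub (wQ_mem_chartAlgFin N ℓ x₁.2)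
  have h2 : (⟨toQ N (wInt N y), toQ_mem_gaussSub N ℓ _⟩ : gaussSub ℓ N)
      = (ℓ : gaussSub ℓ N) * ⟨wQ N (x₁ : ↥(modularFunctionFieldFull N)), hmem⟩ := by
    apply Subtype.ext
    show toQ N (wInt N y) = _
    rw [hw]
    rfl
  rw [← gaussSubRed_toQ N ℓ (wInt N y), h2, map_mul, gaussSubRed_natCast_self, zero_mul]

theorem redZ_wInt_eq_zero_iff (hℓN : ¬ ℓ ∣ N) (y : intRing N) :
    redZ ℓ (wInt N y : LaurentSeries ℤ) = 0 ↔ redZ ℓ (y : LaurentSeries ℤ) = 0 := by
  constructor
  · intro h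
    have := redZ_wInt_eq_zero N ℓ hℓN (wInt N y) h
    rwa [wInt_wInt] at this
  · exact redZ_wInt_eq_zero N ℓ hℓN y

end Fermat.Agent.A2.H309
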