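import Mathlib
import Fermat.Prelude.Def_ModularCurve_LaurentCoeff

/-!
# A2 / M1mod (helper309) — polynomial independence of Laurent series: base change and Frobenius

`PolyIndep J Y` : the finite family `Y i ∈ k((q))` is linearly independent over `k[J]`
(polynomial form, as in `S28.BasisData` (B3)):  `∑ f_i(J) · Y_i = 0 ⟹ f = 0`.

* `PolyIndep.baseChange` : extension of the coefficient field `k₀ → k` preserves `PolyIndep`;
* `PolyIndep.frobSplit`  : `PolyIndep J Y ⟹ PolyIndep (J ^ q) (Y_i · J ^ a)_{i, a < q}`
  (the residue extension `k(J) / k(J^q)` has degree `q`);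
* `polyIndep_iff_aeval`  : the same statement with `Polynomial.aeval`.

Mathlib + Prelude `coeffMap` only.
-/

set_option autoImplicit false

noncomputable section

open ModularCurve Polynomial

namespace Fermat.Agent.A2.H309

section Defs

variable {k : Type*} [Field k] {ι : Type*} [Fintype ι]

/-- evaluation `k[X] → k((q))`, `X ↦ J`, constants through `HahnSeries.C`. -/
def evC (J : LaurentSeries k) : k[X] →+* LaurentSeries k :=
  Polynomial.eval₂RingHom (HahnSeries.C (Γ := ℤ) (R := k)) J

@[simp] theorem evC_X (J : LaurentSeries k) : evC J X = J := by simp [evC]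

@[simp] theorem evC_C (J : LaurentSeries k) (a : k) : evC J (C a) = HahnSeries.C a := by
  simp [evC]

theorem evC_apply (J : LaurentSeries k) (p : k[X]) :
    evC J p = p.eval₂ (HahnSeries.C (Γ := ℤ) (R := k)) J := rfl

/-- **Polynomial independence** of a finite family of Laurent series over `k[J]`. -/
def PolyIndep (J : LaurentSeries k) (Y : ι → LaurentSeries k) : Prop :=
  ∀ f : ι → k[X], ∑ i, evC J (f i) * Y i = 0 → ∀ i, f i = 0

theorem evC_eq_aeval (J : LaurentSeries k) (p : k[X]) : evC J p = Polynomial.aeval J p := by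
  have h : (Polynomial.aeval (R := k) J).toRingHom = evC J := by
    apply Polynomial.ringHom_ext
    · intro a
      simp only [AlgHom.toRingHom_eq_coe, RingHom.coe_coe, Polynomial.aeval_C, evC_C]
      exact algebraMap_laurentSeries_eq_single k a
    · simp
  exact (RingHom.congr_fun h p).symm

theorem polyIndep_iff_aeval (J : LaurentSeries k) (Y : ι → LaurentSeries k) :
    PolyIndep J Y ↔
      ∀ f : ι → k[X], ∑ i, Polynomial.aeval J (f i) * Y i = 0 → ∀ i, f i = 0 := by
  unfold PolyIndep
  simp only [evC_eq_aeval]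

theorem coeff_sum_laurent {α : Type*} (s : Finset α) (F : α → LaurentSeries k) (r : ℤ) :
    (∑ a ∈ s, F a).coeff r = ∑ a ∈ s, (F a).coeff r :=
  map_sum (HahnSeries.coeff.addMonoidHom r) F s

theorem coeff_evC_mul (p : k[X]) (J Y : LaurentSeries k) (D : ℕ) (hD : p.natDegree < D)
    (r : ℤ) :
    (evC J p * Y).coeff r = ∑ m ∈ Finset.range D, p.coeff m * (J ^ m * Y).coeff r := by
  rw [evC_apply, Polynomial.eval₂_eq_sum_range' _ hD, Finset.sum_mul, coeff_sum_laurent]
  refine Finset.sum_congr rfl fun m _ => ?_
  rw [mul_assoc, HahnSeries.C_mul_eq_smul, HahnSeries.coeff_smul, smul_eq_mul]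

end Defs

section BaseChange

variable {k₀ k : Type*} [Field k₀] [Field k] {ι : Type*} [Fintype ι]

/-- **Base change.**  Polynomial independence over `k₀[J]` is preserved by an extension of the
coefficient field. -/
theorem PolyIndep.baseChange (φ : k₀ →+* k) {J : LaurentSeries k₀} {Y : ι → LaurentSeries k₀}
    (h : PolyIndep J Y) : PolyIndep (coeffMap φ J) (fun i => coeffMap φ (Y i)) := by
  classical
  intro f hf
  letI : Algebra k₀ k := φ.toAlgebra
  let b := Module.Basis.ofVectorSpace k₀ k
  -- a uniform degree bound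
  set D : ℕ := (Finset.univ.sup fun i => (f i).natDegree) + 1 with hD
  have hfD : ∀ i, (f i).natDegree < D := fun i =>
    Nat.lt_succ_of_le (Finset.le_sup (f := fun i => (f i).natDegree) (Finset.mem_univ i))
  -- the coordinate polynomials
  let g : (Module.Basis.ofVectorSpaceIndex k₀ k) → ι → k₀[X] := fun β i =>
    ∑ m ∈ Finset.range D, Polynomial.C (b.coord β ((f i).coeff m)) * X ^ m
  have hgcoeff : ∀ β i m, (g β i).coeff m = b.coord β ((f i).coeff m) := by
    intro β i m
    show (∑ m' ∈ Finset.range D, Polynomial.C (b.coord β ((f i).coeff m')) * X ^ m').coeff m = _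
    rw [Polynomial.finset_sum_coeff]
    simp only [Polynomial.coeff_C_mul, Polynomial.coeff_X_pow, mul_ite, mul_one, mul_zero]
    rw [Finset.sum_ite_eq (Finset.range D) m]
    split_ifs with hm
    · rfl
    · rw [Finset.mem_range, not_lt] at hm
      rw [Polynomial.coeff_eq_zero_of_natDegree_lt (lt_of_lt_of_le (hfD i) hm), map_zero]
  have hgD : ∀ β i, (g β i).natDegree < D := by
    intro β i
    refine lt_of_le_of_lt ?_ (hfD i)
    rw [Polynomial.natDegree_le_iff_coeff_eq_zero]
    intro m hm
    rw [hgcoeff, Polynomial.coeff_eq_zero_of_natDegree_lt hm, map_zero]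
  have hg : ∀ β, ∑ i, evC J (g β i) * Y i = 0 := by
    intro β
    ext r
    rw [HahnSeries.coeff_zero, coeff_sum_laurent]
    have h1 := congrArg (fun z : LaurentSeries k => z.coeff r) hf
    simp only [HahnSeries.coeff_zero] at h1
    rw [coeff_sum_laurent] at h1
    have h2 : ∀ i, (evC (coeffMap φ J) (f i) * coeffMap φ (Y i)).coeff r
        = ∑ m ∈ Finset.range D, ((J ^ m * Y i).coeff r) • (f i).coeff m := by
      intro i
      rw [coeff_evC_mul _ _ _ D (hfD i)]
      refine Finset.sum_congr rfl fun m _ => ?_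
      rw [← map_pow, ← map_mul, coeffMap_coeff, Algebra.smul_def, mul_comm]
      rfl
    simp only [h2] at h1
    have h3 := congrArg (b.coord β) h1
    rw [map_zero, map_sum] at h3
    rw [← h3]
    refine Finset.sum_congr rfl fun i _ => ?_
    rw [coeff_evC_mul _ _ _ D (hgD β i), map_sum]
    refine Finset.sum_congr rfl fun m _ => ?_
    rw [map_smul, smul_eq_mul, hgcoeff, mul_comm]
  intro i
  ext m
  rw [Polynomial.coeff_zero]
  have h4 : ∀ β, b.coord β ((f i).coeff m) = 0 := by
    intro β
    have := h (g β) (hg β) i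
    rw [← hgcoeff, this, Polynomial.coeff_zero]
  exact (Module.Basis.forall_coord_eq_zero_iff b).mp h4

end BaseChange

section Frob

variable {k : Type*} [Field k] {ι : Type*} [Fintype ι]

theorem evC_expand (J : LaurentSeries k) (q : ℕ) (p : k[X]) :
    evC J (Polynomial.expand k q p) = evC (J ^ q) p := by
  have h : (evC J).comp (Polynomial.expand k q : k[X] →ₐ[k] k[X]).toRingHom = evC (J ^ q) := by
    apply Polynomial.ringHom_ext
    · intro a
      simp
    · simp
  exact RingHom.congr_fun h p

/-- coefficients of `∑_{a < q} expand q (f a) · X ^ a`. -/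
theorem coeff_sum_expand_mul (q : ℕ) (hq : 0 < q) (f : Fin q → k[X]) (a : Fin q) (m : ℕ) :
    (∑ a' : Fin q, Polynomial.expand k q (f a') * X ^ (a' : ℕ)).coeff (q * m + a)
      = (f a).coeff m := by
  rw [Polynomial.finset_sum_coeff, Finset.sum_eq_single a]
  · rw [Polynomial.coeff_mul_X_pow, Polynomial.coeff_expand_mul' hq]
  · intro a' _ ha'
    rw [Polynomial.coeff_mul_X_pow']
    split_ifs with hle
    · rw [Polynomial.coeff_expand hq, if_neg]
      intro hdvd
      apply ha'
      -- `q ∣ q * m + a - a'` with `a, a' < q` forces `a = a'`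
      have h1 : (a' : ℕ) < q := a'.2
      have h2 : (a : ℕ) < q := a.2
      obtain ⟨c, hc⟩ := hdvd
      have h3 : q * m + a = q * c + a' := by omega
      have h4 : (q * m + a) % q = (q * c + a') % q := by rw [h3]
      rw [Nat.mul_add_mod, Nat.mul_add_mod, Nat.mod_eq_of_lt h2, Nat.mod_eq_of_lt h1] at h4
      exact Fin.ext h4.symm
    · rfl
  · intro h
    exact absurd (Finset.mem_univ a) h

/-- **Frobenius splitting.**  If the `Y i` are independent over `k[J]`, then the `Y i · J ^ a`,
`a < q`, are independent over `k[J ^ q]`. -/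
theorem PolyIndep.frobSplit {J : LaurentSeries k} {Y : ι → LaurentSeries k}
    (h : PolyIndep J Y) (q : ℕ) (hq : 0 < q) :
    PolyIndep (J ^ q) (fun p : ι × Fin q => Y p.1 * J ^ (p.2 : ℕ)) := by
  classical
  intro f hf
  -- collect the terms with the same `i`
  have h1 : ∑ i, evC J (∑ a : Fin q, Polynomial.expand k q (f (i, a)) * X ^ (a : ℕ)) * Y i = 0 := by
    rw [← hf, Fintype.sum_prod_type]
    refine Finset.sum_congr rfl fun i _ => ?_
    rw [map_sum, Finset.sum_mul]
    refine Finset.sum_congr rfl fun a _ => ?_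
    rw [map_mul, map_pow, evC_X, evC_expand]
    ring
  have h2 := h _ h1
  rintro ⟨i, a⟩
  ext m
  rw [Polynomial.coeff_zero, ← coeff_sum_expand_mul q hq (fun a' => f (i, a')) a m, h2 i,
    Polynomial.coeff_zero]

end Frob

end Fermat.Agent.A2.H309
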