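import Fermat.Agent.A2.H309.FrickeRed
import Fermat.Agent.A2.H309.PolyIndep

/-!
# A2 / M1mod (helper309) — residue-independent families at level `N = q · M`, `q ∤ M`

`k` any field of characteristic `q`, `castL k : ℤ((t)) → k((t))` the coefficientwise reduction.

* `exists_indepM`   : `ψ(M)` elements `Y i ∈ ℤ[j(t^d) : d ∣ M]` whose reductions are independent
  over `𝔽_q[j]` (S28 degree count at level `M`);
* `PolyIndep.fricke`: the Fricke involution `w_M` transports independence
  (`J ↦ w_M J`, `Y ↦ w_M Y`), by `redZ_wInt_eq_zero`;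
* `famInf`, `famZero` and `polyIndep_famInf`, `polyIndep_famZero` : the two families of the
  semistable model at level `N = q M`: `ψ(M)` elements independent over `k[j]` at `∞` and
  `q · ψ(M)` elements `g` whose Fricke images `w_N g` are independent over `k[j(t^N)]`;
* `card_families`   : `ψ(M) + q · ψ(M) = ψ(N)`.
-/

set_option autoImplicit false

noncomputable section

open ModularCurve HahnSeries Polynomial

namespace Fermat.Agent.A2.H309

open Fermat.Agent.S24 Fermat.Agent.S24.H997 Fermat.Agent.A2.H528 Fermat.Agent.S28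

section LevelM

variable (M : ℕ) [NeZero M] (q : ℕ) [Fact q.Prime]

theorem redZ_jqModC : redZ q (jqModC ℤ) = jqModC (ZMod q) := coeffMap_jqModC _

/-- **Level `M` family** (S28): `ψ(M)` elements of `ℤ[j(t^d) : d ∣ M]` with reductions independent
over `𝔽_q[j]`. -/
theorem exists_indepM (hqM : ¬ q ∣ M) :
    ∃ Y : Fin (dedekindPsi M) → intRing M,
      PolyIndep (jqModC (ZMod q)) (fun i => redZ q (Y i : LaurentSeries ℤ)) := by
  have hq : q.Prime := Fact.out
  have hchar : ∀ p : ℕ, p.Prime → p ∣ M → (p : ZMod q) ≠ 0 := by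
    intro p hp hpM h0
    have hdvd : q ∣ p := (ZMod.natCast_eq_zero_iff p q).mp h0
    have : q = p := (Nat.prime_dvd_prime_iff_eq hq hp).mp hdvd
    exact hqM (this ▸ hpM)
  have hgood : H867.Good (ZMod q) M :=
    H867.good_of_inputs (ZMod q) M (NeZero.ne M)
      (fun p hp _ _ => H807.nonempty_modPolyData p hp)
      (fun p hp _ _ => H807.nonempty_unitPolyData p hp)
      H25.theta_identity hchar
  obtain ⟨Y, hY, hli⟩ := H325.exists_monomials_linearIndependent (ZMod q) M
    (fun d _ _ => exists_monic_jZ d) (dedekindPsi M) hgood.exists_linearIndependent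
  have hYmem : ∀ i, Y i ∈ intRing M := fun i =>
    (Submonoid.closure_le (S := (intRing M).toSubmonoid)).mpr Subring.subset_closure (hY i)
  refine ⟨fun i => ⟨Y i, hYmem i⟩, ?_⟩
  rw [polyIndep_iff_aeval]
  intro f hf
  have hmem : ∀ i, Polynomial.aeval (jqModC (ZMod q)) (f i) ∈ jField (ZMod q) := fun i =>
    IntermediateField.algebra_adjoin_le_adjoin _ _ (Polynomial.aeval_mem_adjoin_singleton _ _)
  have h0 := Fintype.linearIndependent_iff.mp hli
    (fun i => ⟨Polynomial.aeval (jqModC (ZMod q)) (f i), hmem i⟩) (by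
      have hf' : ∑ x, (aeval (jqModC (ZMod q))) (f x) * (H325.castL (ZMod q)) (Y x) = 0 := hf
      simpa [IntermediateField.smul_def] using hf')
  intro i
  have hi := congrArg Subtype.val (h0 i)
  simp only [ZeroMemClass.coe_zero] at hi
  exact h88_aeval_jqModC_injective (ZMod q) (by rw [hi, map_zero])

end LevelM

section Transport

variable (M : ℕ) [NeZero M] (q : ℕ) [Fact q.Prime] {ι : Type*} [Fintype ι]

/-- reduction of `F(J)`, `F ∈ ℤ[X]`, `J ∈ ℤ[j(t^d)]`. -/
theorem redZ_eval₂ (J : intRing M) (F : ℤ[X]) :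
    redZ q ((F.eval₂ (Int.castRingHom (intRing M)) J : intRing M) : LaurentSeries ℤ)
      = evC (redZ q (J : LaurentSeries ℤ)) (F.map (Int.castRingHom (ZMod q))) := by
  rw [evC_apply, Polynomial.eval₂_map]
  have h := Polynomial.hom_eval₂ F (Int.castRingHom (intRing M))
    ((redZ q).comp (intRing M).subtype) J
  have h2 : ((redZ q).comp (intRing M).subtype).comp (Int.castRingHom (intRing M))
      = (HahnSeries.C (Γ := ℤ) (R := ZMod q)).comp (Int.castRingHom (ZMod q)) :=
    RingHom.ext_int _ _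
  rw [h2] at h
  exact h

theorem redZ_sum_eval₂ (J : intRing M) (Y : ι → intRing M) (F : ι → ℤ[X]) :
    redZ q ((∑ i, (F i).eval₂ (Int.castRingHom (intRing M)) J * Y i : intRing M) :
        LaurentSeries ℤ)
      = ∑ i, evC (redZ q (J : LaurentSeries ℤ)) ((F i).map (Int.castRingHom (ZMod q)))
          * redZ q (Y i : LaurentSeries ℤ) := by
  have h : ((redZ q).comp (intRing M).subtype)
      (∑ i, (F i).eval₂ (Int.castRingHom (intRing M)) J * Y i)
      = ∑ i, evC (redZ q (J : LaurentSeries ℤ)) ((F i).map (Int.castRingHom (ZMod q)))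
          * redZ q (Y i : LaurentSeries ℤ) := by
    rw [map_sum]
    refine Finset.sum_congr rfl fun i _ => ?_
    rw [map_mul]
    congr 1
    exact redZ_eval₂ M q J (F i)
  exact h

/-- **Fricke transport.**  For `q ∤ M`, the Fricke involution `w_M` of `ℤ[j(t^d) : d ∣ M]`
preserves independence of reductions mod `q`. -/
theorem PolyIndep.fricke (hqM : ¬ q ∣ M) (J : intRing M) (Y : ι → intRing M)
    (h : PolyIndep (redZ q (J : LaurentSeries ℤ)) (fun i => redZ q (Y i : LaurentSeries ℤ))) :
    PolyIndep (redZ q (wInt M J : LaurentSeries ℤ))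
      (fun i => redZ q (wInt M (Y i) : LaurentSeries ℤ)) := by
  intro f hf
  have hsurj : Function.Surjective (Polynomial.map (Int.castRingHom (ZMod q))) :=
    Polynomial.map_surjective _ (ZMod.intCast_surjective)
  choose F hF using fun i => hsurj (f i)
  set z' : intRing M :=
    ∑ i, (F i).eval₂ (Int.castRingHom (intRing M)) (wInt M J) * wInt M (Y i) with hz'
  set z : intRing M := ∑ i, (F i).eval₂ (Int.castRingHom (intRing M)) J * Y i with hz
  have hwz : wInt M z = z' := by
    show wIntHom M z = z'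
    rw [hz, hz', map_sum]
    refine Finset.sum_congr rfl fun i _ => ?_
    rw [map_mul, Polynomial.hom_eval₂]
    have h2 : (wIntHom M).comp (Int.castRingHom (intRing M)) = Int.castRingHom (intRing M) :=
      RingHom.ext_int _ _
    rw [h2]
    rfl
  have hred' : redZ q (z' : LaurentSeries ℤ) = 0 := by
    rw [hz', redZ_sum_eval₂, ← hf]
    refine Finset.sum_congr rfl fun i _ => ?_
    rw [hF]
  have hred : redZ q (z : LaurentSeries ℤ) = 0 := by
    have := redZ_wInt_eq_zero M q hqM z' hred'
    rwa [← hwz, wInt_wInt] at this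
  apply h f
  rw [← hred, hz, redZ_sum_eval₂]
  refine Finset.sum_congr rfl fun i _ => ?_
  rw [hF]

end Transport

section LevelN

variable (N M : ℕ) [NeZero N] [NeZero M] (q : ℕ) [Fact q.Prime]

theorem intRing_mono (hMN : M ∣ N) : intRing M ≤ intRing N :=
  Subring.closure_mono fun _ ⟨d, hd, hdM, hx⟩ => ⟨d, hd, hdM.trans hMN, hx⟩

/-- the inclusion `ℤ[j(t^d) : d ∣ M] ⊆ ℤ[j(t^d) : d ∣ N]` for `M ∣ N`. -/
def inclMN (hMN : M ∣ N) : intRing M →+* intRing N where
  toFun y := ⟨(y : LaurentSeries ℤ), intRing_mono N M hMN y.2⟩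
  map_one' := Subtype.ext rfl
  map_mul' _ _ := Subtype.ext rfl
  map_zero' := Subtype.ext rfl
  map_add' _ _ := Subtype.ext rfl

theorem coe_inclMN (hMN : M ∣ N) (y : intRing M) :
    ((inclMN N M hMN y : intRing N) : LaurentSeries ℤ) = (y : LaurentSeries ℤ) := by
  obtain ⟨y, hy⟩ := y
  exact (rfl : y = y)

variable (k : Type*) [Field k] [CharP k q]

/-- `ℤ((t)) → k((t))` factors through `𝔽_q((t))`. -/
theorem castL_eq_coeffMap_redZ (x : LaurentSeries ℤ) :
    H325.castL k x = coeffMap (ZMod.castHom (dvd_refl q) k) (redZ q x) :=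
  (H325.castL_comp (ZMod.castHom (dvd_refl q) k) x).symm

/-- **Frobenius**: `f(t^q) ≡ f(t)^q` in characteristic `q`. -/
theorem castL_qExpand_prime (f : LaurentSeries ℤ) :
    haveI : NeZero q := ⟨(Fact.out : q.Prime).ne_zero⟩
    H325.castL k (qExpand ℤ q f) = (H325.castL k f) ^ q := by
  haveI : NeZero q := ⟨(Fact.out : q.Prime).ne_zero⟩
  rw [castL_eq_coeffMap_redZ q k, castL_eq_coeffMap_redZ q k, redZ, coeffMap_qExpand,
    qExpand_eq_pow_zmod, map_pow]

/-- `j(t^{qM}) ≡ j(t^M)^q` in characteristic `q`. -/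
theorem castL_jZ_mul (hN : N = q * M) : H325.castL k (jZ N) = (H325.castL k (jZ M)) ^ q := by
  haveI : NeZero q := ⟨(Fact.out : q.Prime).ne_zero⟩
  haveI : NeZero (q * M) := ⟨hN ▸ NeZero.ne N⟩
  have h1 : jZ N = qExpand ℤ q (jZ M) := by
    rw [jZ, jZ, qExpand_qExpand]
    exact qExpand_congr hN _
  rw [h1, castL_qExpand_prime]

omit [NeZero N] [NeZero M] in
theorem PolyIndep.congr' {ι : Type*} [Fintype ι] {J J' : LaurentSeries k}
    {Y Y' : ι → LaurentSeries k} (hJ : J = J') (hY : ∀ i, Y i = Y' i) (h : PolyIndep J Y) :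
    PolyIndep J' Y' := by
  have : Y = Y' := funext hY
  subst hJ
  subst this
  exact h

/-- the chosen level-`M` family. -/
def famM (hqM : ¬ q ∣ M) : Fin (dedekindPsi M) → intRing M := (exists_indepM M q hqM).choose

theorem polyIndep_famM (hqM : ¬ q ∣ M) :
    PolyIndep (jqModC (ZMod q)) (fun i => redZ q (famM M q hqM i : LaurentSeries ℤ)) :=
  (exists_indepM M q hqM).choose_spec

/-- the level-`M` family is independent over `k[j]` for every field `k` of characteristic `q`. -/
theorem polyIndep_famM_field (hqM : ¬ q ∣ M) :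
    PolyIndep (jqModC k) (fun i => H325.castL k (famM M q hqM i : LaurentSeries ℤ)) := by
  have h := (polyIndep_famM M q hqM).baseChange (ZMod.castHom (dvd_refl q) k)
  refine PolyIndep.congr' k (coeffMap_jqModC _) (fun i => ?_) h
  exact (castL_eq_coeffMap_redZ q k _).symm

theorem jZ_congr {d d' : ℕ} [NeZero d] [NeZero d'] (h : d = d') : jZ d = jZ d' :=
  qExpand_congr h _

/-- the Fricke images of the level-`M` family are independent over `k[j(t^M)]`. -/
theorem polyIndep_wInt_famM (hqM : ¬ q ∣ M) :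
    PolyIndep (H325.castL k (jZ M))
      (fun i => H325.castL k (wInt M (famM M q hqM i) : LaurentSeries ℤ)) := by
  have h0 : PolyIndep (redZ q ((jInt M 1 (one_dvd M) : intRing M) : LaurentSeries ℤ))
      (fun i => redZ q (famM M q hqM i : LaurentSeries ℤ)) := by
    refine PolyIndep.congr' (ZMod q) ?_ (fun i => rfl) (polyIndep_famM M q hqM)
    show jqModC (ZMod q) = redZ q (jZ 1)
    rw [jZ, qExpand_one_apply, redZ_jqModC]
  have h1 := PolyIndep.fricke M q hqM _ _ h0
  have h2 := h1.baseChange (ZMod.castHom (dvd_refl q) k)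
  refine PolyIndep.congr' k ?_ (fun i => ?_) h2
  · rw [← castL_eq_coeffMap_redZ q k, wInt_jInt]
    haveI := neZero_div M (one_dvd M)
    show H325.castL k (jZ (M / 1)) = _
    rw [jZ_congr (Nat.div_one M)]
  · exact (castL_eq_coeffMap_redZ q k _).symm

/-! ### The two families at level `N = q · M` -/

/-- **family at `∞`**: the level-`M` family, viewed at level `N`. -/
def famInf (hMN : M ∣ N) (hqM : ¬ q ∣ M) : Fin (dedekindPsi M) → intRing N :=
  fun i => inclMN N M hMN (famM M q hqM i)

/-- the Fricke image of the family at `0`. -/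
def famW (hMN : M ∣ N) (hqM : ¬ q ∣ M) : Fin (dedekindPsi M) × Fin q → intRing N :=
  fun p => inclMN N M hMN (wInt M (famM M q hqM p.1)) * jInt N M hMN ^ (p.2 : ℕ)

/-- **family at `0`**: `w_N (w_M(Y_i) · j(t^M)^a)`, `a < q`. -/
def famZero (hMN : M ∣ N) (hqM : ¬ q ∣ M) : Fin (dedekindPsi M) × Fin q → intRing N :=
  fun p => wInt N (famW N M q hMN hqM p)

theorem wInt_famZero (hMN : M ∣ N) (hqM : ¬ q ∣ M) (p : Fin (dedekindPsi M) × Fin q) :
    wInt N (famZero N M q hMN hqM p) = famW N M q hMN hqM p :=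
  wInt_wInt N _

theorem wF_toFF_famZero (hMN : M ∣ N) (hqM : ¬ q ∣ M) (p : Fin (dedekindPsi M) × Fin q) :
    wF N (toFF N (famZero N M q hMN hqM p)) = toFF N (famW N M q hMN hqM p) := by
  rw [wInt_spec, wInt_famZero]

theorem coe_famInf (hMN : M ∣ N) (hqM : ¬ q ∣ M) (i : Fin (dedekindPsi M)) :
    ((famInf N M q hMN hqM i : intRing N) : LaurentSeries ℤ)
      = (famM M q hqM i : LaurentSeries ℤ) :=
  coe_inclMN N M hMN _

theorem coe_famW (hMN : M ∣ N) (hqM : ¬ q ∣ M) (p : Fin (dedekindPsi M) × Fin q) :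
    ((famW N M q hMN hqM p : intRing N) : LaurentSeries ℤ)
      = (wInt M (famM M q hqM p.1) : LaurentSeries ℤ) * jZ M ^ (p.2 : ℕ) := by
  show ((inclMN N M hMN (wInt M (famM M q hqM p.1)) * jInt N M hMN ^ (p.2 : ℕ) : intRing N) :
    LaurentSeries ℤ) = _
  rw [Subring.coe_mul, Subring.coe_pow, coe_inclMN]
  rfl

/-- **Independence at `∞`**: `ψ(M)` elements of `ℤ[j(t^d) : d ∣ N]` with reductions independent
over `k[j]`. -/
theorem polyIndep_famInf (hMN : M ∣ N) (hqM : ¬ q ∣ M) :
    PolyIndep (jqModC k)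
      (fun i => H325.castL k (famInf N M q hMN hqM i : LaurentSeries ℤ)) := by
  refine PolyIndep.congr' k rfl (fun i => ?_) (polyIndep_famM_field M q k hqM)
  rw [coe_famInf]

/-- **Independence at `0`**: `q · ψ(M)` elements `g` of `ℤ[j(t^d) : d ∣ N]` such that the
reductions of `w_N g` are independent over `k[j(t^N)] = k[w_N j]`. -/
theorem polyIndep_famZero (hN : N = q * M) (hqM : ¬ q ∣ M) :
    PolyIndep (H325.castL k (jZ N))
      (fun p => H325.castL k
        (wInt N (famZero N M q (Dvd.intro_left q hN.symm) hqM p) : LaurentSeries ℤ)) := by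
  have hq : 0 < q := (Fact.out : q.Prime).pos
  have h := (polyIndep_wInt_famM M q k hqM).frobSplit q hq
  refine PolyIndep.congr' k (castL_jZ_mul N M q k hN).symm (fun p => ?_) h
  rw [wInt_famZero, coe_famW, map_mul, map_pow]

/-- **degree count**: `ψ(M) + q ψ(M) = ψ(N)`. -/
theorem card_families (hN : N = q * M) (hqM : ¬ q ∣ M) :
    dedekindPsi M + q * dedekindPsi M = dedekindPsi N := by
  have h := H626.psi_mul_prime_of_not_dvd (NeZero.ne M) (Fact.out : q.Prime) hqM
  rw [hN, mul_comm q M, h]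
  ring

end LevelN


end Fermat.Agent.A2.H309
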